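import Mathlib

/-!
# G1-H, file NVCore/Rho: a piece of the abstract non-vanishing lemma (Mathlib only)

See `Fermat/Agent/G1/H/NVCore.lean` for the plan.
-/

set_option autoImplicit false

namespace Fermat.Agent.G1.H

open IsLocalRing

/-- (b) the action of the polynomial ring. -/
theorem NVCore_exists_rho {R : Type} [CommRing R] {𝕂 : Type} [Field 𝕂] (ι : R →+* 𝕂)
    {S : Type} [AddCommGroup S] [Module 𝕂 S] {X : Type} (F : X → Module.End 𝕂 S)
    (hF : ∀ x y, Commute (F x) (F y)) :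
    ∃ ρ : MvPolynomial X R →+* Module.End 𝕂 S, (∀ x, ρ (MvPolynomial.X x) = F x) ∧
      (∀ c, ρ (MvPolynomial.C c) = ι c • 1) ∧ ∀ a b, Commute (ρ a) (ρ b) := by
  have hcomm : ∀ a ∈ Set.range F, ∀ b ∈ Set.range F, a * b = b * a := by
    rintro _ ⟨x, rfl⟩ _ ⟨y, rfl⟩
    exact hF x y
  letI : CommRing (Algebra.adjoin 𝕂 (Set.range F)) := Algebra.adjoinCommRingOfComm 𝕂 hcomm
  let ρ0 : MvPolynomial X R →+* Algebra.adjoin 𝕂 (Set.range F) :=
    MvPolynomial.eval₂Hom ((algebraMap 𝕂 (Algebra.adjoin 𝕂 (Set.range F))).comp ι)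
      (fun x => ⟨F x, Algebra.subset_adjoin ⟨x, rfl⟩⟩)
  let ρ : MvPolynomial X R →+* Module.End 𝕂 S :=
    (Subalgebra.val (Algebra.adjoin 𝕂 (Set.range F))).toRingHom.comp ρ0
  refine ⟨ρ, fun x => ?_, fun c => ?_, fun a b => ?_⟩
  · show ((ρ0 (MvPolynomial.X x) : Algebra.adjoin 𝕂 (Set.range F)) : Module.End 𝕂 S) = F x
    rw [MvPolynomial.eval₂Hom_X']
  · show ((ρ0 (MvPolynomial.C c) : Algebra.adjoin 𝕂 (Set.range F)) : Module.End 𝕂 S) = ι c • 1
    rw [MvPolynomial.eval₂Hom_C]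
    show ((algebraMap 𝕂 (Algebra.adjoin 𝕂 (Set.range F)) (ι c) :
      Algebra.adjoin 𝕂 (Set.range F)) : Module.End 𝕂 S) = ι c • 1
    rw [Subalgebra.coe_algebraMap, Algebra.algebraMap_eq_smul_one]
  · show ρ a * ρ b = ρ b * ρ a
    rw [← map_mul, ← map_mul, mul_comm]

/-- (c) `ρ r g ≡ (eval φ r) g mod Z`. -/
theorem NVCore_rho_cong {R : Type} [CommRing R] {𝕂 : Type} [Field 𝕂] (ι : R →+* 𝕂)
    {S : Type} [AddCommGroup S] [Module 𝕂 S] {X : Type} (F : X → Module.End 𝕂 S)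
    (ρ : MvPolynomial X R →+* Module.End 𝕂 S) (hρX : ∀ x, ρ (MvPolynomial.X x) = F x)
    (hρC : ∀ c, ρ (MvPolynomial.C c) = ι c • 1)
    (φ : X → R) (Z : AddSubgroup S) (hZs : ∀ (c : R) (z : S), z ∈ Z → ι c • z ∈ Z)
    (hZF : ∀ x z, z ∈ Z → F x z ∈ Z) (g : S) (hgF : ∀ x, F x g - ι (φ x) • g ∈ Z)
    (r : MvPolynomial X R) :
    (∀ z ∈ Z, ρ r z ∈ Z) ∧ ρ r g - ι (MvPolynomial.eval φ r) • g ∈ Z := by
  induction r using MvPolynomial.induction_on with
  | C c =>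
    refine ⟨fun z hz => ?_, ?_⟩
    · rw [hρC, LinearMap.smul_apply, Module.End.one_apply]
      exact hZs c z hz
    · rw [hρC, LinearMap.smul_apply, Module.End.one_apply, MvPolynomial.eval_C, sub_self]
      exact Z.zero_mem
  | add p q hp hq =>
    refine ⟨fun z hz => ?_, ?_⟩
    · rw [map_add, LinearMap.add_apply]
      exact Z.add_mem (hp.1 z hz) (hq.1 z hz)
    · rw [map_add, LinearMap.add_apply, map_add, map_add, add_smul]
      have := Z.add_mem hp.2 hq.2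
      convert this using 1
      abel
  | mul_X p x hp =>
    refine ⟨fun z hz => ?_, ?_⟩
    · rw [map_mul, Module.End.mul_apply, hρX]
      exact hp.1 _ (hZF x z hz)
    · rw [map_mul, Module.End.mul_apply, hρX, map_mul, MvPolynomial.eval_X, map_mul]
      have h1 := hp.1 _ (hgF x)
      have h2 := hZs (φ x) _ hp.2
      have h3 := Z.add_mem h1 h2
      convert h3 using 1
      rw [map_sub, map_smul, smul_sub, smul_smul, mul_comm (ι (φ x))]
      abel

end Fermat.Agent.G1.H
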