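import Mathlib

/-!
# G1-H, file NVCore/Rows: a piece of the abstract non-vanishing lemma (Mathlib only)

See `Fermat/Agent/G1/H/NVCore.lean` for the plan.
-/

set_option autoImplicit false

namespace Fermat.Agent.G1.H

open IsLocalRing

/-- the submodule of the vectors which are "`I`-divisible on the coordinate functionals". -/
def Rows_sub {R : Type} [CommRing R] [IsLocalRing R] {𝕂 : Type} [Field 𝕂] (ι : R →+* 𝕂)
    {S : Type} [AddCommGroup S] [Module 𝕂 S] {X : Type}
    (ρ : MvPolynomial X R →+* Module.End 𝕂 S)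
    (hρC : ∀ c, ρ (MvPolynomial.C c) = ι c • 1)
    {n : Type} [Fintype n] (per : S →ₗ[𝕂] (n → 𝕂)) (φ : X → R) :
    Submodule R (n → R) where
  carrier := {u | ∃ θ : n → MvPolynomial X R, (∀ j, residue R (MvPolynomial.eval φ (θ j)) = 0) ∧
      ∀ s, ∑ j, ι (u j) * per s j = ∑ j, per (ρ (θ j) s) j}
  add_mem' := by
    rintro u u' ⟨θ, hθ, h⟩ ⟨θ', hθ', h'⟩
    refine ⟨θ + θ', fun j => ?_, fun s => ?_⟩
    · rw [Pi.add_apply, map_add, map_add, hθ, hθ', add_zero]
    · simp only [Pi.add_apply, map_add, add_mul, Finset.sum_add_distrib, LinearMap.add_apply, h, h']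
  zero_mem' := by
    refine ⟨0, fun j => ?_, fun s => ?_⟩
    · simp
    · simp
  smul_mem' := by
    rintro c u ⟨θ, hθ, h⟩
    refine ⟨fun j => MvPolynomial.C c * θ j, fun j => ?_, fun s => ?_⟩
    · rw [map_mul, map_mul, hθ, mul_zero]
    · simp only [Pi.smul_apply, smul_eq_mul, map_mul, hρC, Module.End.mul_apply,
        LinearMap.smul_apply, Module.End.one_apply, map_smul, mul_assoc]
      rw [← Finset.mul_sum, h, Finset.mul_sum]

/-- (e) the rows: every `u ∈ Rⁿ` is "`I`-divisible on the coordinate functionals". -/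
theorem NVCore_rows {R : Type} [CommRing R] [IsLocalRing R] {𝕂 : Type} [Field 𝕂] (ι : R →+* 𝕂)
    {S : Type} [AddCommGroup S] [Module 𝕂 S] {X : Type} (F : X → Module.End 𝕂 S)
    (ρ : MvPolynomial X R →+* Module.End 𝕂 S) (hρX : ∀ x, ρ (MvPolynomial.X x) = F x)
    (hρC : ∀ c, ρ (MvPolynomial.C c) = ι c • 1)
    {n : Type} [Fintype n] [DecidableEq n] (A : X → Matrix n n R) (per : S →ₗ[𝕂] (n → 𝕂))
    (hA : ∀ x s, per (F x s) = ((A x).map ι).mulVec (per s)) (φ : X → R)
    (htop : (⨆ x, LinearMap.range (Matrix.mulVecLin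
      ((A x).map (residue R) - Matrix.scalar n (residue R (φ x))).transpose)) = ⊤)
    (u : n → R) :
    ∃ θ : n → MvPolynomial X R, (∀ j, residue R (MvPolynomial.eval φ (θ j)) = 0) ∧
      ∀ s, ∑ j, ι (u j) * per s j = ∑ j, per (ρ (θ j) s) j := by
  classical
  set 𝒰 := Rows_sub ι ρ hρC per φ with h𝒰
  -- (ii)
  have hmax : ∀ u : n → R, (∀ j, u j ∈ maximalIdeal R) → u ∈ 𝒰 := by
    intro u hu
    refine ⟨fun j => MvPolynomial.C (u j), fun j => ?_, fun s => ?_⟩
    · rw [MvPolynomial.eval_C]
      exact (residue_eq_zero_iff _).mpr (hu j)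
    · simp only [hρC, LinearMap.smul_apply, Module.End.one_apply, map_smul, Pi.smul_apply,
        smul_eq_mul]
  -- (iii)
  have hrange : ∀ (x : X) (w : n → R),
      ((A x - Matrix.scalar n (φ x)).transpose).mulVec w ∈ 𝒰 := by
    intro x w
    refine ⟨fun l => MvPolynomial.C (w l) * (MvPolynomial.X x - MvPolynomial.C (φ x)),
      fun j => ?_, fun s => ?_⟩
    · simp
    · have h1 : ∀ l, per (ρ (MvPolynomial.C (w l) *
          (MvPolynomial.X x - MvPolynomial.C (φ x))) s) l =
          ι (w l) * (∑ j, ι (A x l j) * per s j - ι (φ x) * per s l) := by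
        intro l
        rw [map_mul, map_sub, hρC, hρC, hρX, Module.End.mul_apply, LinearMap.smul_apply,
          Module.End.one_apply, map_smul, Pi.smul_apply, smul_eq_mul, LinearMap.sub_apply,
          map_sub, Pi.sub_apply, hA, LinearMap.smul_apply, Module.End.one_apply, map_smul,
          Pi.smul_apply, smul_eq_mul]
        rfl
      simp only [h1]
      have h2 : ∀ j, ι (((A x - Matrix.scalar n (φ x)).transpose).mulVec w j) =
          ∑ l, (ι (A x l j) - (if l = j then ι (φ x) else 0)) * ι (w l) := by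
        intro j
        rw [Matrix.mulVec, dotProduct, map_sum]
        refine Finset.sum_congr rfl fun l _ => ?_
        rw [map_mul, Matrix.transpose_apply, Matrix.sub_apply, map_sub, Matrix.scalar_apply,
          Matrix.diagonal_apply, apply_ite ι, map_zero]
      simp only [h2, Finset.sum_mul]
      rw [Finset.sum_comm]
      refine Finset.sum_congr rfl fun l _ => ?_
      rw [mul_sub, Finset.mul_sum]
      have h3 : ∀ j, (ι (A x l j) - (if l = j then ι (φ x) else 0)) * ι (w l) * per s j =
          ι (w l) * (ι (A x l j) * per s j) - (if l = j then ι (w l) * (ι (φ x) * per s j) else 0) := by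
        intro j
        split_ifs <;> ring
      simp only [h3, Finset.sum_sub_distrib, Finset.sum_ite_eq, Finset.mem_univ, if_true]
  -- (iv)
  have hlift : ∀ y ∈ (⨆ x, LinearMap.range (Matrix.mulVecLin
      ((A x).map (residue R) - Matrix.scalar n (residue R (φ x))).transpose)),
      ∃ u' ∈ 𝒰, ∀ j, residue R (u' j) = y j := by
    intro y hy
    induction hy using Submodule.iSup_induction' with
    | mem x y hy =>
      obtain ⟨wbar, rfl⟩ := hy
      choose w hw using fun j => residue_surjective (R := R) (wbar j)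
      refine ⟨_, hrange x w, fun j => ?_⟩
      rw [Matrix.mulVecLin_apply, Matrix.mulVec, Matrix.mulVec, dotProduct, dotProduct, map_sum]
      refine Finset.sum_congr rfl fun l _ => ?_
      rw [map_mul, hw, Matrix.transpose_apply, Matrix.transpose_apply, Matrix.sub_apply,
        Matrix.sub_apply, map_sub, Matrix.map_apply, Matrix.scalar_apply, Matrix.scalar_apply,
        Matrix.diagonal_apply, Matrix.diagonal_apply, apply_ite (residue R), map_zero]
    | zero => exact ⟨0, 𝒰.zero_mem, fun j => by simp⟩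
    | add y y' _ _ ih ih' =>
      obtain ⟨u1, hu1, h1⟩ := ih
      obtain ⟨u2, hu2, h2⟩ := ih'
      exact ⟨u1 + u2, 𝒰.add_mem hu1 hu2, fun j => by
        rw [Pi.add_apply, map_add, h1, h2, Pi.add_apply]⟩
  obtain ⟨u', hu', h'⟩ := hlift (fun j => residue R (u j)) (by rw [htop]; trivial)
  have h4 : u - u' ∈ 𝒰 := hmax _ fun j => by
    rw [← residue_eq_zero_iff, Pi.sub_apply, map_sub, h', sub_self]
  have h5 : u ∈ 𝒰 := by
    have := 𝒰.add_mem h4 hu'
    rwa [sub_add_cancel] at this
  exact h5

end Fermat.Agent.G1.H
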