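import Mathlib

/-!
# G1-H, file NVCore/Ker: a piece of the abstract non-vanishing lemma (Mathlib only)

See `Fermat/Agent/G1/H/NVCore.lean` for the plan.
-/

set_option autoImplicit false

namespace Fermat.Agent.G1.H

open IsLocalRing

/-- (a) duality: if the transposed operators `Bᵀ x` do not span, the `B x` have a common kernel
vector. -/
theorem NVCore_exists_ker {k : Type} [Field k] {n : Type} [Fintype n] [DecidableEq n] {X : Type}
    (B : X → Matrix n n k)
    (h : (⨆ x, LinearMap.range (Matrix.mulVecLin (B x).transpose)) ≠ ⊤) :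
    ∃ v : n → k, v ≠ 0 ∧ ∀ x, (B x).mulVec v = 0 := by
  obtain ⟨f, hf0, hf⟩ := Submodule.exists_le_ker_of_lt_top _ (lt_top_iff_ne_top.mpr h)
  let v : n → k := fun i => f (Pi.single i 1)
  have hfv : ∀ w : n → k, f w = v ⬝ᵥ w := by
    intro w
    rw [LinearMap.pi_apply_eq_sum_univ f w, dotProduct]
    refine Finset.sum_congr rfl fun i _ => ?_
    rw [smul_eq_mul, mul_comm]
    congr 2
    ext j
    simp [Pi.single_apply, eq_comm]
  refine ⟨v, ?_, fun x => ?_⟩
  · intro hv
    apply hf0
    ext i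
    simp [hfv, hv]
  · ext i
    have h1 : (B x).transpose.mulVec (Pi.single i 1) ∈
        ⨆ x, LinearMap.range (Matrix.mulVecLin (B x).transpose) :=
      (le_iSup (fun x => LinearMap.range (Matrix.mulVecLin (B x).transpose)) x)
        ⟨Pi.single i 1, rfl⟩
    have h2 := hf h1
    rw [LinearMap.mem_ker, hfv, Matrix.dotProduct_mulVec, Matrix.vecMul_transpose] at h2
    simpa using h2

/-- (d) the determinant trick. -/
theorem NVCore_det_trick {P : Type} [CommRing P] {𝕂 : Type} [Field 𝕂]
    {S : Type} [AddCommGroup S] [Module 𝕂 S] (ρ : P →+* Module.End 𝕂 S)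
    {n : Type} [Fintype n] [DecidableEq n] (per : S →ₗ[𝕂] (n → 𝕂))
    (hper : Function.Injective per) (Ξ : Matrix n n P)
    (h : ∀ s i, ∑ j, per (ρ (Ξ i j) s) j = 0) : ρ Ξ.det = 0 := by
  ext s
  apply hper
  rw [LinearMap.zero_apply, map_zero]
  ext i
  rw [Pi.zero_apply]
  have h1 : ∑ j, per (ρ ((Ξ.adjugate * Ξ) i j) s) j = 0 := by
    have h2 : ∀ j, per (ρ ((Ξ.adjugate * Ξ) i j) s) j =
        ∑ l, per (ρ (Ξ l j) (ρ (Ξ.adjugate i l) s)) j := by
      intro j
      rw [Matrix.mul_apply, map_sum, LinearMap.sum_apply, map_sum, Finset.sum_apply]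
      refine Finset.sum_congr rfl fun l _ => ?_
      rw [mul_comm, map_mul, Module.End.mul_apply]
    simp only [h2]
    rw [Finset.sum_comm]
    exact Finset.sum_eq_zero fun l _ => h _ l
  rw [Matrix.adjugate_mul] at h1
  rw [Finset.sum_eq_single i] at h1
  · simpa using h1
  · intro j _ hj
    simp [Matrix.one_apply_ne hj.symm]
  · simp

end Fermat.Agent.G1.H
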